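import Fermat.Agent.MUL.Orig.Lib.Minkowski.InertiaLift
import Fermat.Agent.MUL.Lib.BadRed.Mod.OldSep

set_option autoImplicit false

/-!
# Bridge between Frobenius elements at finite level and Frobenius elements of `Gal(ℚ̄/ℚ)`

* `isFrobeniusAt_of_forall_sub_pow_mem_centre`: an element of `Gal(ℚ̄/ℚ)` stabilising the centre of
  a valuation subring `A` and acting as `x ↦ x ^ ℓ` on algebraic integers modulo the centre is a
  Frobenius at `A`.
* `exists_isFrobeniusAt_restrict`: a Frobenius at finite level lifts to a Frobenius of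
  `Gal(ℚ̄/ℚ)` at `A`.
* `exists_valuationSubring_over_prime`: every prime of the ring of integers of a subfield of `ℚ̄`
  is cut out by a valuation subring of `ℚ̄`.
-/

namespace Fermat.Agent.FrobBridge

open Fermat.Agent.FrobExists Fermat.Agent.Minkowski
open scoped Pointwise NumberField
open IsLocalRing

attribute [local instance] isAlgebraic_Qb isAlgClosure_Qb isInvariant_Zb

/-- An element of the absolute Galois group which stabilises the centre of `A` and acts as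
`x ↦ x ^ ℓ` on the algebraic integers modulo the centre is a Frobenius at `A`. -/
theorem isFrobeniusAt_of_forall_sub_pow_mem_centre (A : ValuationSubring Qb) (ℓ : ℕ) (σ : GQ)
    (hσQ : σ • centre A = centre A) (hσ : ∀ b : Zb, σ • b - b ^ ℓ ∈ centre A) :
    A.IsFrobeniusAt σ ℓ := by
  have hdec := mem_decompositionSubgroup_of_smul_centre A σ hσQ
  refine ⟨hdec, fun x => ?_⟩
  obtain ⟨a, rfl⟩ := residue_surjective x
  obtain ⟨s, hs, hsu, hsx⟩ := exists_integral_mul A a.1 a.2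
  let g : A.decompositionSubgroup ℚ := ⟨σ, hdec⟩
  let sZ : Zb := ⟨s, hs⟩
  let bZ : Zb := ⟨s * a, hsx⟩
  let r : Zb →+* ResidueField A := (residue A).comp (inclV A)
  have hr : ∀ b : Zb, b ∈ centre A → r b = 0 := fun b hb =>
    (residue_eq_zero_iff _).mpr hb
  have hrσ : ∀ b : Zb, r (σ • b) = r b ^ ℓ := by
    intro b
    have := hr _ (hσ b)
    rwa [map_sub, map_pow, sub_eq_zero] at this
  have hrs : r sZ ≠ 0 := by
    intro h
    have : sZ ∈ centre A := (residue_eq_zero_iff _).mp h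
    rw [mem_centre_iff] at this
    exact hsu this
  have e1 : inclV A sZ * a = inclV A bZ := Subtype.ext rfl
  have e2 : inclV A (σ • sZ) * (g • a) = inclV A (σ • bZ) := by
    apply Subtype.ext
    change σ s * σ a = σ (s * a)
    rw [map_mul]
  have e3 : r (σ • sZ) * residue A (g • a) = r (σ • bZ) := by
    have := congrArg (residue A) e2
    rwa [map_mul] at this
  have e4 : r bZ = r sZ * residue A a := by
    have := congrArg (residue A) e1
    rw [map_mul] at this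
    exact this.symm
  rw [hrσ, hrσ, e4, mul_pow] at e3
  exact mul_left_cancel₀ (pow_ne_zero ℓ hrs) e3

/-- For every valuation subring `A` of `ℚ̄` over `ℓ` there is a Frobenius at `A` which acts as
`x ↦ x ^ ℓ` on all algebraic integers modulo the maximal ideal of `A`. -/
theorem exists_isFrobeniusAt_of_liesOver (A : ValuationSubring Qb) (ℓ : ℕ) (hℓ : ℓ.Prime)
    (hA : A.LiesOverPrime ℓ) :
    ∃ σ : GQ, A.IsFrobeniusAt σ ℓ ∧ σ • centre A = centre A ∧
      ∀ x : Qb, IsIntegral ℤ x → σ x - x ^ ℓ ∈ A.nonunits := by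
  have hℓQ : (ℓ : Zb) ∈ centre A := by
    rw [mem_centre_iff]
    exact hA
  obtain ⟨σ, hσQ, hσ⟩ := frobMod_exists_h53 ℓ hℓ (centre A) hℓQ
  refine ⟨σ, isFrobeniusAt_of_forall_sub_pow_mem_centre A ℓ σ hσQ hσ, hσQ, fun x hx => ?_⟩
  have h := hσ ⟨x, hx⟩
  rw [mem_centre_iff] at h
  exact h

/-- The product of an inertia element and a Frobenius is a Frobenius. -/
theorem isFrobeniusAt_mul_of_mem_inertiaSubgroupIn (A : ValuationSubring Qb) (ℓ : ℕ) (i σ : GQ)
    (hi : i ∈ A.inertiaSubgroupIn ℚ) (hσ : A.IsFrobeniusAt σ ℓ) : A.IsFrobeniusAt (i * σ) ℓ := by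
  obtain ⟨j, hj, rfl⟩ := hi
  obtain ⟨hσdec, hσx⟩ := hσ
  have hdec : (A.decompositionSubgroup ℚ).subtype j * σ ∈ A.decompositionSubgroup ℚ :=
    (A.decompositionSubgroup ℚ).mul_mem j.2 hσdec
  refine ⟨hdec, fun x => ?_⟩
  have hmul : (⟨(A.decompositionSubgroup ℚ).subtype j * σ, hdec⟩ : A.decompositionSubgroup ℚ)
      = j * ⟨σ, hσdec⟩ := rfl
  rw [hmul, mul_smul, hσx]
  have hj' : MulSemiringAction.toRingAut (A.decompositionSubgroup ℚ) (ResidueField A) j = 1 := hj
  have := RingEquiv.congr_fun hj' (x ^ ℓ)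
  exact this

/-- **Lifting Frobenius.** Let `L/ℚ` be a finite Galois subextension of `ℚ̄/ℚ`, `A` a valuation
subring of `ℚ̄` over `ℓ` and `φ ∈ Gal(L/ℚ)` an element acting as `x ↦ x ^ ℓ` on the integers of `L`
modulo the maximal ideal of `A`.  Then `φ` is the restriction of a Frobenius at `A`. -/
theorem exists_isFrobeniusAt_restrict (A : ValuationSubring (AlgebraicClosure ℚ)) (ℓ : ℕ)
    (hℓ : ℓ.Prime) (hA : A.LiesOverPrime ℓ)
    (L : IntermediateField ℚ (AlgebraicClosure ℚ)) [FiniteDimensional ℚ L] [IsGalois ℚ L]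
    (φ : L ≃ₐ[ℚ] L)
    (hφ : ∀ x : L, IsIntegral ℤ x →
      ((φ x : L) : AlgebraicClosure ℚ) - ((x : L) : AlgebraicClosure ℚ) ^ ℓ ∈ A.nonunits) :
    ∃ τ : AlgebraicClosure ℚ ≃ₐ[ℚ] AlgebraicClosure ℚ,
      A.IsFrobeniusAt τ ℓ ∧ AlgEquiv.restrictNormalHom L τ = φ := by
  obtain ⟨σ, hσF, -, hσ⟩ := exists_isFrobeniusAt_of_liesOver A ℓ hℓ hA
  let σL : L ≃ₐ[ℚ] L := AlgEquiv.restrictNormalHom L σ
  let s : L ≃ₐ[ℚ] L := φ * σL⁻¹
  have hs : ∀ x : L, IsIntegral ℤ x → ((s x : L) : Qb) - (x : Qb) ∈ A.nonunits := by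
    intro x hx
    let y : L := σL⁻¹ x
    have hy : IsIntegral ℤ y := hx.map (σL⁻¹ : L ≃ₐ[ℚ] L)
    have hyQ : IsIntegral ℤ (y : Qb) := hy.map (IsScalarTower.toAlgHom ℤ L Qb)
    have h1 := hφ y hy
    have h2 := hσ (y : Qb) hyQ
    have h3 : σ (y : Qb) = (x : Qb) := by
      have h4 : ((σL y : L) : Qb) = σ (y : Qb) := AlgEquiv.restrictNormal_commutes σ L y
      rw [← h4]
      congr 1
      change σL (σL⁻¹ x) = x
      exact (σL).apply_symm_apply x
    rw [h3] at h2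
    have h5 : ((s x : L) : Qb) - (x : Qb)
        = (((φ y : L) : Qb) - (y : Qb) ^ ℓ) - ((x : Qb) - (y : Qb) ^ ℓ) := by
      change ((φ (σL⁻¹ x) : L) : Qb) - (x : Qb) = _
      ring
    rw [h5]
    exact A.nonunits.sub_mem h1 h2
  obtain ⟨i, hi, his⟩ := exists_mem_inertiaSubgroupIn_restrict A ℓ hℓ hA L s hs
  refine ⟨i * σ, isFrobeniusAt_mul_of_mem_inertiaSubgroupIn A ℓ i σ hi hσF, ?_⟩
  rw [map_mul, his]
  change φ * σL⁻¹ * σL = φ
  rw [inv_mul_cancel_right]

/-- Every proper ideal `P` of a ring `R` mapping injectively to `ℚ̄` is contained in the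
preimage of the maximal ideal of some valuation subring containing the image of `R`. -/
theorem exists_valuationSubring_image_subset_nonunits {R : Type*} [CommRing R] (f : R →+* Qb)
    (P : Ideal R) (hP : P ≠ ⊤) (hf : Function.Injective f) :
    ∃ A : ValuationSubring Qb, (∀ x : R, f x ∈ A) ∧ ∀ x ∈ P, f x ∈ A.nonunits := by
  let A₀ : Subring Qb := f.range
  let e : R →+* A₀ := f.rangeRestrict
  have he : Function.Surjective e := f.rangeRestrict_surjective
  have hI : P.map e ≠ ⊤ := by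
    intro h
    apply hP
    rw [Ideal.eq_top_iff_one] at h ⊢
    rw [Ideal.mem_map_iff_of_surjective e he] at h
    obtain ⟨x, hx, hx1⟩ := h
    have : f x = 1 := congrArg Subtype.val hx1
    have hx' : x = 1 := hf (this.trans (map_one f).symm)
    exact hx' ▸ hx
  obtain ⟨A, hA₀, hA⟩ := Ideal.image_subset_nonunits_valuationSubring (P.map e) hI
  refine ⟨A, fun x => hA₀ ⟨x, rfl⟩, fun x hx => ?_⟩
  exact hA ⟨e x, Ideal.mem_map_of_mem e hx, rfl⟩

/-- Every prime `P` of the ring of integers of a subfield `L` of `ℚ̄` containing the prime number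
`ℓ` is cut out by a valuation subring of `ℚ̄` lying over `ℓ`. -/
theorem exists_valuationSubring_over_prime (L : IntermediateField ℚ (AlgebraicClosure ℚ))
    (P : Ideal (𝓞 L)) [hPprime : P.IsPrime] (ℓ : ℕ) (hℓ : ℓ.Prime) (hP : (ℓ : 𝓞 L) ∈ P) :
    ∃ A : ValuationSubring (AlgebraicClosure ℚ), A.LiesOverPrime ℓ ∧
      ∀ x : 𝓞 L, x ∈ P ↔ (((x : L) : AlgebraicClosure ℚ)) ∈ A.nonunits := by
  let f : 𝓞 L →+* Qb := (algebraMap L Qb).comp (algebraMap (𝓞 L) L)
  have hf : Function.Injective f :=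
    (algebraMap L Qb).injective.comp NumberField.RingOfIntegers.coe_injective
  obtain ⟨A, hfA, hPA⟩ := exists_valuationSubring_image_subset_nonunits f P hPprime.ne_top hf
  -- `P` is maximal
  have hℓP : (ℓ : ℤ) ∈ P.under ℤ := by
    change (ℓ : ℤ) ∈ Ideal.comap (algebraMap ℤ (𝓞 L)) P
    rw [Ideal.mem_comap]
    simpa using hP
  have hP0 : P.under ℤ ≠ ⊥ := by
    intro h
    rw [h, Ideal.mem_bot] at hℓP
    exact hℓ.ne_zero (by exact_mod_cast hℓP)
  have hPmax0 : (P.under ℤ).IsMaximal := IsPrime.to_maximal_ideal hP0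
  have hPmax : P.IsMaximal := Ideal.isMaximal_of_isIntegral_of_isMaximal_comap P hPmax0
  -- the ideal cut out by `A`
  let g : 𝓞 L →+* A :=
    { toFun := fun x => ⟨f x, hfA x⟩
      map_one' := Subtype.ext (map_one f)
      map_mul' := fun x y => Subtype.ext (map_mul f x y)
      map_zero' := Subtype.ext (map_zero f)
      map_add' := fun x y => Subtype.ext (map_add f x y) }
  let P' : Ideal (𝓞 L) := Ideal.comap g (maximalIdeal A)
  have hmem : ∀ x : 𝓞 L, x ∈ P' ↔ f x ∈ A.nonunits := by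
    intro x
    rw [Ideal.mem_comap, ← ValuationSubring.coe_mem_nonunits_iff]
    rfl
  have hle : P ≤ P' := fun x hx => (hmem x).mpr (hPA x hx)
  have hP'top : P' ≠ ⊤ := (Ideal.comap_isPrime g (maximalIdeal A)).ne_top
  have hPP' : P = P' := hPmax.eq_of_le hP'top hle
  refine ⟨A, ?_, fun x => ?_⟩
  · have h := hPA _ hP
    have h2 : f (ℓ : 𝓞 L) = (ℓ : Qb) := map_natCast f ℓ
    rw [h2] at h
    exact h
  · rw [hPP', hmem]
    rfl

/-- **Bridge.** A Frobenius `φ ∈ Gal(L/ℚ)` at a prime `P` of the ring of integers of a finite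
Galois subextension `L` of `ℚ̄/ℚ` (i.e. `φ x ≡ x ^ ℓ` modulo `P`) is the restriction of a Frobenius
of `Gal(ℚ̄/ℚ)` at a valuation subring of `ℚ̄` cutting out `P`. -/
theorem exists_frobenius_of_prime (L : IntermediateField ℚ (AlgebraicClosure ℚ))
    [FiniteDimensional ℚ L] [IsGalois ℚ L]
    (P : Ideal (𝓞 L)) [P.IsPrime] (ℓ : ℕ) (hℓ : ℓ.Prime) (hP : (ℓ : 𝓞 L) ∈ P)
    (φ : L ≃ₐ[ℚ] L)
    (hφ : ∀ x : 𝓞 L, ∃ y ∈ P, φ (x : L) - (x : L) ^ ℓ = (y : L)) :
    ∃ (A : ValuationSubring (AlgebraicClosure ℚ))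
      (τ : AlgebraicClosure ℚ ≃ₐ[ℚ] AlgebraicClosure ℚ),
      A.LiesOverPrime ℓ ∧
      (∀ x : 𝓞 L, x ∈ P ↔ (((x : L) : AlgebraicClosure ℚ)) ∈ A.nonunits) ∧
      A.IsFrobeniusAt τ ℓ ∧ AlgEquiv.restrictNormalHom L τ = φ := by
  obtain ⟨A, hA, hPA⟩ := exists_valuationSubring_over_prime L P ℓ hℓ hP
  obtain ⟨τ, hτ, hτφ⟩ := exists_isFrobeniusAt_restrict A ℓ hℓ hA L φ (by
    intro x hx
    obtain ⟨y, hy, hxy⟩ := hφ ⟨x, hx⟩
    have h1 : ((φ x : L) : Qb) - ((x : L) : Qb) ^ ℓ = (((y : L)) : Qb) := by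
      have h2 := congrArg (fun z : L => (z : Qb)) hxy
      have h3 : ((φ x - x ^ ℓ : L) : Qb) = (((y : L)) : Qb) := h2
      rw [← h3]
      push_cast
      rfl
    rw [h1]
    exact (hPA y).mp hy)
  exact ⟨A, τ, hA, hPA, hτ, hτφ⟩

end Fermat.Agent.FrobBridge
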